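import Fermat.Agent.S14.H889.Rho

/-!
# Geometry of the support of `rho`

On the support of `rho`, all `normAtPlace w X` are comparable to `‖X‖`.
-/

namespace Fermat.Agent.S14.H889

open NumberField NumberField.mixedEmbedding NumberField.Units
  NumberField.Units.dirichletUnitTheorem NumberField.InfinitePlace Module

open scoped Classical

variable (K : Type*) [Field K] [NumberField K]

lemma abs_tcoord_lt_one_of_rho_ne_zero {X : mixedSpace K} (h : rho K X ≠ 0) (j : Fin (rank K)) :
    |tcoord K X j| < 1 := by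
  apply abs_lt_one_of_tent_ne_zero
  intro h0
  exact h (Finset.prod_eq_zero (Finset.mem_univ j) h0)

/-- A uniform bound for the coordinates of combinations of the unit-lattice basis with
coefficients in `[-1, 1]`. -/
lemma exists_logBasis_bound : ∃ M : ℝ, 0 ≤ M ∧ ∀ (t : Fin (rank K) → ℝ), (∀ j, |t j| ≤ 1) →
    ∀ w : {w : InfinitePlace K // w ≠ w₀}, |(∑ j, t j • logBasis K j) w| ≤ M := by
  classical
  refine ⟨∑ j, ‖logBasis K j‖, Finset.sum_nonneg fun _ _ => norm_nonneg _, fun t ht w => ?_⟩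
  rw [Finset.sum_apply]
  refine (Finset.abs_sum_le_sum_abs _ _).trans (Finset.sum_le_sum fun j _ => ?_)
  rw [Pi.smul_apply, smul_eq_mul, abs_mul]
  calc |t j| * |logBasis K j w| ≤ 1 * ‖logBasis K j‖ := by
        gcongr
        · exact ht j
        · exact norm_le_pi_norm (logBasis K j) w
    _ = ‖logBasis K j‖ := one_mul _

/-- A uniform bound for the coordinates `repr` in terms of sup-bounds. -/
lemma exists_repr_bound : ∃ L : ℝ, 0 ≤ L ∧ ∀ (v : logSpace K) (B : ℝ), 0 ≤ B →
    (∀ w, |v w| ≤ B) → ∀ j, |(logBasis K).repr v j| ≤ L * B := by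
  classical
  refine ⟨‖((logBasis K).equivFunL : logSpace K →L[ℝ] (Fin (rank K) → ℝ))‖, norm_nonneg _,
    fun v B hB hv j => ?_⟩
  have h1 : ‖v‖ ≤ B := (pi_norm_le_iff_of_nonneg hB).mpr fun w => by
    rw [Real.norm_eq_abs]; exact hv w
  have h2 : |(logBasis K).repr v j| ≤ ‖(logBasis K).equivFunL v‖ := by
    have := norm_le_pi_norm ((logBasis K).equivFunL v) j
    rwa [Real.norm_eq_abs] at this
  have h3 : ‖(logBasis K).equivFunL v‖ ≤
      ‖((logBasis K).equivFunL : logSpace K →L[ℝ] (Fin (rank K) → ℝ))‖ * ‖v‖ :=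
    ((logBasis K).equivFunL : logSpace K →L[ℝ] (Fin (rank K) → ℝ)).le_opNorm v
  refine h2.trans (h3.trans ?_)
  gcongr

variable {K}

/-- The normalised logarithm at a place. -/
noncomputable def ell (X : mixedSpace K) (w : InfinitePlace K) : ℝ :=
  Real.log (normAtPlace w X) - Real.log (mixedEmbedding.norm X) * (finrank ℚ K : ℝ)⁻¹

lemma logMap_eq_mult_mul_ell (X : mixedSpace K) (w : {w : InfinitePlace K // w ≠ w₀}) :
    logMap X w = mult w.val * ell X w.val := rfl

lemma log_norm_eq_sum {X : mixedSpace K} (hX : mixedEmbedding.norm X ≠ 0) :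
    Real.log (mixedEmbedding.norm X) = ∑ w, (mult w : ℝ) * Real.log (normAtPlace w X) := by
  rw [mixedEmbedding.norm_apply, Real.log_prod]
  · refine Finset.sum_congr rfl fun w _ => ?_
    rw [Real.log_pow]
  · intro w _
    exact pow_ne_zero _ (mixedEmbedding.norm_ne_zero_iff.mp hX w)

lemma sum_mult_mul_ell {X : mixedSpace K} (hX : mixedEmbedding.norm X ≠ 0) :
    ∑ w, (mult w : ℝ) * ell X w = 0 := by
  unfold ell
  simp_rw [mul_sub, Finset.sum_sub_distrib, ← log_norm_eq_sum hX]
  have h : ∑ w : InfinitePlace K, (mult w : ℝ) = (finrank ℚ K : ℝ) := by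
    rw [← Nat.cast_sum, sum_mult_eq]
  have hn : (finrank ℚ K : ℝ) ≠ 0 := Nat.cast_ne_zero.mpr finrank_pos.ne'
  have : ∑ w : InfinitePlace K, (mult w : ℝ) *
      (Real.log (mixedEmbedding.norm X) * (finrank ℚ K : ℝ)⁻¹) =
      Real.log (mixedEmbedding.norm X) := by
    rw [← Finset.sum_mul, h]
    field_simp
  rw [this, sub_self]

variable (K)

/-- On the support of `rho`, the normalised logarithms `ell` are uniformly bounded. -/
lemma exists_ell_bound : ∃ M : ℝ, 0 ≤ M ∧ ∀ X : mixedSpace K, mixedEmbedding.norm X ≠ 0 →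
    rho K X ≠ 0 → ∀ w, |ell X w| ≤ M := by
  classical
  obtain ⟨M₀, hM₀, hM⟩ := exists_logBasis_bound K
  refine ⟨(Fintype.card (InfinitePlace K) : ℝ) * M₀ + M₀, by positivity, fun X hX hρ w => ?_⟩
  have hlog : ∀ w' : {w : InfinitePlace K // w ≠ w₀}, |logMap X w'| ≤ M₀ := by
    intro w'
    have h1 : logMap X = ∑ j, tcoord K X j • logBasis K j := by
      unfold tcoord
      exact ((logBasis K).sum_repr (logMap X)).symm
    rw [h1]
    exact hM _ (fun j => (abs_tcoord_lt_one_of_rho_ne_zero K hρ j).le) w'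
  have hne : ∀ w : InfinitePlace K, w ≠ w₀ → |ell X w| ≤ M₀ := by
    intro w hw
    have h2 := hlog ⟨w, hw⟩
    rw [logMap_eq_mult_mul_ell, abs_mul] at h2
    have h3 : (1 : ℝ) ≤ |(mult w : ℝ)| := by
      rw [abs_of_nonneg (Nat.cast_nonneg _)]
      exact_mod_cast one_le_mult
    calc |ell X w| = 1 * |ell X w| := (one_mul _).symm
      _ ≤ |(mult w : ℝ)| * |ell X w| := by gcongr
      _ ≤ M₀ := h2
  by_cases hw : w = w₀
  · subst hw
    have hsum := sum_mult_mul_ell hX
    rw [← Finset.add_sum_erase Finset.univ _ (Finset.mem_univ (w₀ : InfinitePlace K))] at hsum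
    have h4 : (mult (w₀ : InfinitePlace K) : ℝ) * ell X w₀ =
        -∑ w ∈ Finset.univ.erase (w₀ : InfinitePlace K), (mult w : ℝ) * ell X w := by
      linarith
    have h5 : |∑ w ∈ Finset.univ.erase (w₀ : InfinitePlace K), (mult w : ℝ) * ell X w| ≤
        (Fintype.card (InfinitePlace K) : ℝ) * M₀ := by
      refine (Finset.abs_sum_le_sum_abs _ _).trans ?_
      calc ∑ w ∈ Finset.univ.erase (w₀ : InfinitePlace K), |(mult w : ℝ) * ell X w|
          ≤ ∑ _w ∈ Finset.univ.erase (w₀ : InfinitePlace K), M₀ := by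
            refine Finset.sum_le_sum fun w hw => ?_
            have hw' : w ≠ w₀ := Finset.ne_of_mem_erase hw
            have := hlog ⟨w, hw'⟩
            rwa [logMap_eq_mult_mul_ell] at this
        _ = ((Finset.univ.erase (w₀ : InfinitePlace K)).card : ℝ) * M₀ := by
            rw [Finset.sum_const, nsmul_eq_mul]
        _ ≤ (Fintype.card (InfinitePlace K) : ℝ) * M₀ := by
            gcongr
            exact_mod_cast Finset.card_le_univ _
    have h6 : (1 : ℝ) ≤ |(mult (w₀ : InfinitePlace K) : ℝ)| := by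
      rw [abs_of_nonneg (Nat.cast_nonneg _)]
      exact_mod_cast one_le_mult
    have h7 : |(mult (w₀ : InfinitePlace K) : ℝ) * ell X w₀| ≤
        (Fintype.card (InfinitePlace K) : ℝ) * M₀ := by
      rw [h4, abs_neg]; exact h5
    rw [abs_mul] at h7
    calc |ell X w₀| = 1 * |ell X w₀| := (one_mul _).symm
      _ ≤ |(mult (w₀ : InfinitePlace K) : ℝ)| * |ell X w₀| := by gcongr
      _ ≤ (Fintype.card (InfinitePlace K) : ℝ) * M₀ := h7
      _ ≤ (Fintype.card (InfinitePlace K) : ℝ) * M₀ + M₀ := by linarith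
  · refine (hne w hw).trans ?_
    have : 0 ≤ (Fintype.card (InfinitePlace K) : ℝ) * M₀ := by positivity
    linarith

lemma normAtPlace_le_norm (X : mixedSpace K) (w : InfinitePlace K) : normAtPlace w X ≤ ‖X‖ := by
  rw [norm_eq_sup'_normAtPlace]
  exact Finset.le_sup' (fun w => normAtPlace w X) (Finset.mem_univ w)

/-- **Cone property**: on the support of `rho`, every `normAtPlace w X` is at least `c * ‖X‖`. -/
theorem exists_cone_const : ∃ c : ℝ, 0 < c ∧ c ≤ 1 ∧ ∀ X : mixedSpace K,
    mixedEmbedding.norm X ≠ 0 → rho K X ≠ 0 → ∀ w, c * ‖X‖ ≤ normAtPlace w X := by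
  obtain ⟨M, hM0, hM⟩ := exists_ell_bound K
  refine ⟨Real.exp (-(2 * M)), Real.exp_pos _, ?_, fun X hX hρ w => ?_⟩
  · rw [Real.exp_le_one_iff]; linarith
  have hpos : ∀ w, 0 < normAtPlace w X := fun w =>
    lt_of_le_of_ne (normAtPlace_nonneg w X) (Ne.symm (mixedEmbedding.norm_ne_zero_iff.mp hX w))
  have key : ∀ w', normAtPlace w' X ≤ Real.exp (2 * M) * normAtPlace w X := by
    intro w'
    have h1 : Real.log (normAtPlace w' X) - Real.log (normAtPlace w X) = ell X w' - ell X w := by
      unfold ell; ring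
    have h2 : Real.log (normAtPlace w' X) ≤ 2 * M + Real.log (normAtPlace w X) := by
      have a := abs_le.mp (hM X hX hρ w')
      have b := abs_le.mp (hM X hX hρ w)
      linarith [a.2, b.1]
    calc normAtPlace w' X = Real.exp (Real.log (normAtPlace w' X)) :=
          (Real.exp_log (hpos w')).symm
      _ ≤ Real.exp (2 * M + Real.log (normAtPlace w X)) := Real.exp_le_exp.mpr h2
      _ = Real.exp (2 * M) * normAtPlace w X := by
          rw [Real.exp_add, Real.exp_log (hpos w)]
  have hnorm : ‖X‖ ≤ Real.exp (2 * M) * normAtPlace w X := by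
    rw [norm_eq_sup'_normAtPlace]
    exact Finset.sup'_le _ _ fun w' _ => key w'
  calc Real.exp (-(2 * M)) * ‖X‖ ≤ Real.exp (-(2 * M)) * (Real.exp (2 * M) * normAtPlace w X) := by
        gcongr
    _ = normAtPlace w X := by
        rw [← mul_assoc, ← Real.exp_add]; simp

end Fermat.Agent.S14.H889
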