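import Fermat.Agent.S14.H889.Lip

/-!
# Lattice sums over `𝓞 K`
-/

namespace Fermat.Agent.S14.H889

open NumberField NumberField.mixedEmbedding NumberField.Units
  NumberField.Units.dirichletUnitTheorem NumberField.InfinitePlace Module

open scoped Classical

variable (K : Type*) [Field K] [NumberField K]

/-- The embedding of `𝓞 K` in the mixed space. -/
noncomputable def emb (x : 𝓞 K) : mixedSpace K := mixedEmbedding K (algebraMap (𝓞 K) K x)

variable {K}

lemma emb_add (x y : 𝓞 K) : emb K (x + y) = emb K x + emb K y := by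
  unfold emb; rw [map_add, map_add]

lemma emb_zero : emb K (0 : 𝓞 K) = 0 := by
  unfold emb; rw [map_zero, map_zero]

lemma emb_mul (x y : 𝓞 K) : emb K (x * y) = emb K x * emb K y := by
  unfold emb; rw [map_mul, map_mul]

lemma emb_injective : Function.Injective (emb K) := fun x y h => by
  unfold emb at h
  exact RingOfIntegers.coe_injective (mixedEmbedding_injective K h)

lemma emb_neg (x : 𝓞 K) : emb K (-x) = -emb K x := by
  unfold emb; rw [map_neg, map_neg]

lemma emb_sub (x y : 𝓞 K) : emb K (x - y) = emb K x - emb K y := by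
  unfold emb; rw [map_sub, map_sub]

lemma emb_eq_zero_iff {x : 𝓞 K} : emb K x = 0 ↔ x = 0 := by
  rw [← emb_zero]; exact emb_injective.eq_iff

lemma norm_emb (x : 𝓞 K) : mixedEmbedding.norm (emb K x) = |(Algebra.norm ℤ x : ℝ)| := by
  unfold emb
  rw [norm_eq_norm, ← RingOfIntegers.coe_eq_algebraMap, ← Algebra.coe_norm_int]
  push_cast
  rfl

lemma one_le_norm_emb {x : 𝓞 K} (hx : x ≠ 0) : 1 ≤ mixedEmbedding.norm (emb K x) := by
  rw [norm_emb, ← Int.cast_abs]
  have : (1 : ℤ) ≤ |Algebra.norm ℤ x| := Int.one_le_abs (Algebra.norm_ne_zero_iff.mpr hx)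
  exact_mod_cast this

lemma norm_emb_ne_zero {x : 𝓞 K} (hx : x ≠ 0) : mixedEmbedding.norm (emb K x) ≠ 0 :=
  (lt_of_lt_of_le one_pos (one_le_norm_emb hx)).ne'

lemma norm_emb_pos {x : 𝓞 K} (hx : x ≠ 0) : 0 < ‖emb K x‖ :=
  norm_pos_iff.mpr (fun h => hx (emb_eq_zero_iff.mp h))

lemma emb_unit_smul (u : (𝓞 K)ˣ) (x : 𝓞 K) : u • emb K x = emb K ((u : 𝓞 K) * x) := by
  unfold emb
  rw [unitSMul_smul, map_mul, map_mul]

lemma Fs_emb_le_one {s : ℝ} (hs : 0 < s) (x : 𝓞 K) : Fs s (emb K x) ≤ 1 := by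
  by_cases hx : x = 0
  · rw [hx, emb_zero, Fs_zero hs.ne']; exact zero_le_one
  · unfold Fs
    have h1 := one_le_norm_emb hx
    have h2 : mixedEmbedding.norm (emb K x) ^ (-s) ≤ 1 :=
      Real.rpow_le_one_of_one_le_of_nonpos h1 (by linarith)
    calc rho K (emb K x) * mixedEmbedding.norm (emb K x) ^ (-s) ≤ 1 * 1 :=
          mul_le_mul (rho_le_one K _) h2 (Real.rpow_nonneg (mixedEmbedding.norm_nonneg _) _)
            zero_le_one
      _ = 1 := one_mul 1

variable (K)

/-- `𝓞 K` is in bijection with the integer lattice. -/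
noncomputable def embEquiv : 𝓞 K ≃ mixedEmbedding.integerLattice K :=
  Equiv.ofBijective (fun x => ⟨emb K x, ⟨x, rfl⟩⟩)
    ⟨fun _ _ h => emb_injective (Subtype.ext_iff.mp h), fun ⟨_, ⟨x, hx⟩⟩ => ⟨x, Subtype.ext hx⟩⟩

lemma summable_norm_emb_rpow {r : ℝ} (hr : r < -(finrank ℚ K : ℝ)) :
    Summable fun x : 𝓞 K => ‖emb K x‖ ^ r := by
  have h1 : finrank ℤ (mixedEmbedding.integerLattice K) = finrank ℚ K := by
    rw [ZLattice.rank ℝ, mixedEmbedding.finrank]
  have h2 := ZLattice.summable_norm_rpow (mixedEmbedding.integerLattice K) r (by rw [h1]; exact hr)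
  exact (Equiv.summable_iff (embEquiv K)).mpr h2

lemma summable_norm_emb_pow_inv : Summable fun x : 𝓞 K => (‖emb K x‖ ^ (finrank ℚ K + 1))⁻¹ := by
  have h := summable_norm_emb_rpow K (r := -((finrank ℚ K + 1 : ℕ) : ℝ)) (by push_cast; linarith)
  refine h.congr fun x => ?_
  rw [Real.rpow_neg (norm_nonneg _), Real.rpow_natCast]

end Fermat.Agent.S14.H889
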