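import Fermat.Agent.S14.H889.Cone

/-!
# Lipschitz estimate for `rho * norm ^ (-s)` on the cone
-/

namespace Fermat.Agent.S14.H889

open NumberField NumberField.mixedEmbedding NumberField.Units
  NumberField.Units.dirichletUnitTheorem NumberField.InfinitePlace Module

open scoped Classical

variable {K : Type*} [Field K] [NumberField K]

lemma abs_log_sub_log_le {a b m : ℝ} (hm : 0 < m) (ha : m ≤ a) (hb : m ≤ b) :
    |Real.log a - Real.log b| ≤ |a - b| / m := by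
  have ha0 : 0 < a := hm.trans_le ha
  have hb0 : 0 < b := hm.trans_le hb
  have key : ∀ x y : ℝ, m ≤ x → m ≤ y → Real.log x - Real.log y ≤ |x - y| / m := by
    intro x y hx hy
    have hx0 : 0 < x := hm.trans_le hx
    have hy0 : 0 < y := hm.trans_le hy
    have h1 : Real.log x - Real.log y ≤ x / y - 1 := by
      rw [← Real.log_div hx0.ne' hy0.ne']
      exact Real.log_le_sub_one_of_pos (div_pos hx0 hy0)
    have h2 : x / y - 1 = (x - y) / y := by field_simp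
    rw [h2] at h1
    refine h1.trans ?_
    rcases le_or_gt y x with h | h
    · rw [abs_of_nonneg (sub_nonneg.mpr h)]
      exact div_le_div_of_nonneg_left (sub_nonneg.mpr h) hm hy
    · have : (x - y) / y ≤ 0 := div_nonpos_of_nonpos_of_nonneg (by linarith) hy0.le
      exact this.trans (div_nonneg (abs_nonneg _) hm.le)
  rw [abs_le]
  constructor
  · have := key b a hb ha
    rw [abs_sub_comm] at this
    linarith
  · exact key a b ha hb

lemma abs_normAtPlace_sub_le (X Y : mixedSpace K) (w : InfinitePlace K) :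
    |normAtPlace w Y - normAtPlace w X| ≤ ‖Y - X‖ := by
  have h1 : normAtPlace w Y ≤ normAtPlace w X + ‖Y - X‖ := by
    have := normAtPlace_add_le w X (Y - X)
    rw [add_sub_cancel] at this
    exact this.trans (by gcongr; exact normAtPlace_le_norm K _ w)
  have h2 : normAtPlace w X ≤ normAtPlace w Y + ‖Y - X‖ := by
    have := normAtPlace_add_le w Y (X - Y)
    rw [add_sub_cancel] at this
    refine this.trans ?_
    gcongr
    rw [← norm_neg (Y - X), neg_sub]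
    exact normAtPlace_le_norm K _ w
  rw [abs_le]
  constructor <;> linarith

omit [NumberField K] in
lemma mult_le_two (w : InfinitePlace K) : (mult w : ℝ) ≤ 2 := by
  unfold mult
  split_ifs <;> norm_num

/-- `norm X ≥ m ^ n` if all `normAtPlace w X ≥ m`. -/
lemma pow_le_norm {X : mixedSpace K} {m : ℝ} (hm : 0 ≤ m) (h : ∀ w, m ≤ normAtPlace w X) :
    m ^ (finrank ℚ K) ≤ mixedEmbedding.norm X := by
  rw [mixedEmbedding.norm_apply, ← sum_mult_eq, ← Finset.prod_pow_eq_pow_sum]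
  exact Finset.prod_le_prod (fun w _ => pow_nonneg hm _) fun w _ => pow_le_pow_left₀ hm (h w) _

/-- The summand `rho X * (norm X) ^ (-s)`. -/
noncomputable def Fs (s : ℝ) (X : mixedSpace K) : ℝ :=
  rho K X * (mixedEmbedding.norm X) ^ (-s)

lemma Fs_nonneg (s : ℝ) (X : mixedSpace K) : 0 ≤ Fs s X :=
  mul_nonneg (rho_nonneg K X) (Real.rpow_nonneg (mixedEmbedding.norm_nonneg X) _)

lemma Fs_zero {s : ℝ} (hs : s ≠ 0) : Fs s (0 : mixedSpace K) = 0 := by
  unfold Fs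
  rw [map_zero, Real.zero_rpow (neg_ne_zero.mpr hs), mul_zero]

/-- if `1 ≤ x` and `1 ≤ s` then `x ^ (-s) ≤ x⁻¹`. -/
lemma rpow_neg_le_inv {x s : ℝ} (hx : 1 ≤ x) (hs : 1 ≤ s) : x ^ (-s) ≤ x⁻¹ := by
  rw [← Real.rpow_neg_one]
  exact Real.rpow_le_rpow_of_exponent_le hx (by linarith)

section core

variable {X Y : mixedSpace K} {m : ℝ}

lemma abs_log_norm_sub_le (hm : 0 < m) (hX : ∀ w, m ≤ normAtPlace w X)
    (hY : ∀ w, m ≤ normAtPlace w Y) :
    |Real.log (mixedEmbedding.norm Y) - Real.log (mixedEmbedding.norm X)| ≤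
      (finrank ℚ K : ℝ) * (‖Y - X‖ / m) := by
  have hNX : mixedEmbedding.norm X ≠ 0 :=
    mixedEmbedding.norm_ne_zero_iff.mpr fun w => (hm.trans_le (hX w)).ne'
  have hNY : mixedEmbedding.norm Y ≠ 0 :=
    mixedEmbedding.norm_ne_zero_iff.mpr fun w => (hm.trans_le (hY w)).ne'
  rw [log_norm_eq_sum hNX, log_norm_eq_sum hNY, ← Finset.sum_sub_distrib]
  refine (Finset.abs_sum_le_sum_abs _ _).trans ?_
  have h : (finrank ℚ K : ℝ) * (‖Y - X‖ / m) = ∑ w : InfinitePlace K, (mult w : ℝ) * (‖Y - X‖ / m) := by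
    rw [← Finset.sum_mul, ← Nat.cast_sum, sum_mult_eq]
  rw [h]
  refine Finset.sum_le_sum fun w _ => ?_
  rw [← mul_sub, abs_mul, abs_of_nonneg (Nat.cast_nonneg _)]
  gcongr
  exact (abs_log_sub_log_le hm (hY w) (hX w)).trans
    (div_le_div_of_nonneg_right (abs_normAtPlace_sub_le X Y w) hm.le)

lemma abs_ell_sub_le (hm : 0 < m) (hX : ∀ w, m ≤ normAtPlace w X)
    (hY : ∀ w, m ≤ normAtPlace w Y) (w : InfinitePlace K) :
    |ell Y w - ell X w| ≤ 2 * (‖Y - X‖ / m) := by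
  have hn : (0 : ℝ) < finrank ℚ K := Nat.cast_pos.mpr finrank_pos
  have h1 : ell Y w - ell X w = (Real.log (normAtPlace w Y) - Real.log (normAtPlace w X)) -
      (Real.log (mixedEmbedding.norm Y) - Real.log (mixedEmbedding.norm X)) *
        (finrank ℚ K : ℝ)⁻¹ := by
    unfold ell; ring
  rw [h1]
  have h2 := (abs_log_sub_log_le hm (hY w) (hX w)).trans
    (div_le_div_of_nonneg_right (abs_normAtPlace_sub_le X Y w) hm.le)
  have h3 : |(Real.log (mixedEmbedding.norm Y) - Real.log (mixedEmbedding.norm X)) *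
      (finrank ℚ K : ℝ)⁻¹| ≤ ‖Y - X‖ / m := by
    rw [abs_mul, abs_of_pos (inv_pos.mpr hn)]
    calc _ ≤ (finrank ℚ K : ℝ) * (‖Y - X‖ / m) * (finrank ℚ K : ℝ)⁻¹ := by
          gcongr
          exact abs_log_norm_sub_le hm hX hY
      _ = ‖Y - X‖ / m := by field_simp
  calc _ ≤ |Real.log (normAtPlace w Y) - Real.log (normAtPlace w X)| +
        |(Real.log (mixedEmbedding.norm Y) - Real.log (mixedEmbedding.norm X)) *
          (finrank ℚ K : ℝ)⁻¹| := abs_sub _ _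
    _ ≤ ‖Y - X‖ / m + ‖Y - X‖ / m := add_le_add h2 h3
    _ = 2 * (‖Y - X‖ / m) := by ring

lemma abs_logMap_sub_le (hm : 0 < m) (hX : ∀ w, m ≤ normAtPlace w X)
    (hY : ∀ w, m ≤ normAtPlace w Y) (w : {w : InfinitePlace K // w ≠ w₀}) :
    |(logMap Y - logMap X) w| ≤ 4 * (‖Y - X‖ / m) := by
  rw [Pi.sub_apply, logMap_eq_mult_mul_ell, logMap_eq_mult_mul_ell, ← mul_sub, abs_mul,
    abs_of_nonneg (Nat.cast_nonneg _)]
  calc _ ≤ 2 * (2 * (‖Y - X‖ / m)) := by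
        gcongr
        · exact mult_le_two _
        · exact abs_ell_sub_le hm hX hY _
    _ = 4 * (‖Y - X‖ / m) := by ring

end core

variable (K)

/-- **One-sided difference estimate.**  There are constants `c, C` (depending only on `K`) such
that `c` is a cone constant for the support of `rho` and, whenever `X` lies in the support of
`rho`, `‖X‖` is large and `Y` is close to `X`, the summand changes by at most
`C * ‖Y - X‖ / ‖X‖ ^ (n + 1)`, uniformly in `s ∈ [1, 2]`. -/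
theorem exists_diff_bound : ∃ c C : ℝ, 0 < c ∧ c ≤ 1 ∧ 0 ≤ C ∧
    (∀ X : mixedSpace K, mixedEmbedding.norm X ≠ 0 → rho K X ≠ 0 →
      ∀ w, c * ‖X‖ ≤ normAtPlace w X) ∧
    ∀ (X Y : mixedSpace K) (s : ℝ), 1 ≤ s → s ≤ 2 → mixedEmbedding.norm X ≠ 0 → rho K X ≠ 0 →
      1 ≤ c / 2 * ‖X‖ → 2 * (finrank ℚ K : ℝ) * ‖Y - X‖ ≤ c / 2 * ‖X‖ →
      |Fs s Y - Fs s X| ≤ C * ‖Y - X‖ * (‖X‖ ^ (finrank ℚ K + 1))⁻¹ := by
  obtain ⟨c, hc0, hc1, hcone⟩ := exists_cone_const K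
  obtain ⟨L, hL0, hL⟩ := exists_repr_bound K
  obtain ⟨n, hn⟩ : ∃ n : ℕ, n = finrank ℚ K := ⟨_, rfl⟩
  have hn1 : (1 : ℝ) ≤ n := by rw [hn]; exact_mod_cast (finrank_pos : 0 < finrank ℚ K)
  obtain ⟨r, hr⟩ : ∃ r : ℝ, r = (rank K : ℝ) := ⟨_, rfl⟩
  have hr0 : 0 ≤ r := by rw [hr]; positivity
  rw [← hn]
  refine ⟨c, (4 * r * L + 4 * n) * (2 / c) ^ (n + 1), hc0, hc1, by positivity, hcone, ?_⟩
  intro X Y s hs1 hs2 hNX hρ hm1 hδ
  obtain ⟨m, hm_def⟩ : ∃ m : ℝ, m = c / 2 * ‖X‖ := ⟨_, rfl⟩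
  obtain ⟨δ, hδ_def⟩ : ∃ δ : ℝ, δ = ‖Y - X‖ := ⟨_, rfl⟩
  rw [← hm_def] at hm1 hδ
  rw [← hδ_def] at hδ ⊢
  have hδ0 : 0 ≤ δ := by rw [hδ_def]; exact norm_nonneg _
  have hm0 : 0 < m := lt_of_lt_of_le one_pos hm1
  have hXpos : 0 < ‖X‖ := by
    by_contra h
    have : ‖X‖ = 0 := le_antisymm (not_lt.mp h) (norm_nonneg _)
    rw [hm_def, this, mul_zero] at hm1
    linarith
  have hδm : δ ≤ m := by nlinarith
  have hδm1 : 2 * (n : ℝ) * (δ / m) ≤ 1 := by
    rw [← mul_div_assoc, div_le_one hm0]; exact hδ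
  have hXw : ∀ w, m ≤ normAtPlace w X := fun w => by
    have := hcone X hNX hρ w
    have h2 : m ≤ c * ‖X‖ := by rw [hm_def]; nlinarith
    linarith
  have hYw : ∀ w, m ≤ normAtPlace w Y := fun w => by
    have h1 := hcone X hNX hρ w
    have h2 := abs_le.mp (abs_normAtPlace_sub_le X Y w)
    have h3 : c * ‖X‖ = 2 * m := by rw [hm_def]; ring
    rw [← hδ_def] at h2
    linarith [h2.1]
  have hNXm : m ^ n ≤ mixedEmbedding.norm X := by rw [hn]; exact pow_le_norm hm0.le hXw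
  have hNYm : m ^ n ≤ mixedEmbedding.norm Y := by rw [hn]; exact pow_le_norm hm0.le hYw
  have hlog : |Real.log (mixedEmbedding.norm Y) - Real.log (mixedEmbedding.norm X)| ≤
      (n : ℝ) * (δ / m) := by
    rw [hn, hδ_def]; exact abs_log_norm_sub_le hm0 hXw hYw
  have hlogMap : ∀ w : {w : InfinitePlace K // w ≠ w₀},
      |(logMap Y - logMap X) w| ≤ 4 * (δ / m) := fun w => by
    rw [hδ_def]; exact abs_logMap_sub_le hm0 hXw hYw w
  have hmn0 : (0 : ℝ) < m ^ n := pow_pos hm0 n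
  have hmn1 : (1 : ℝ) ≤ m ^ n := one_le_pow₀ hm1
  have hNX1 : 1 ≤ mixedEmbedding.norm X := hmn1.trans hNXm
  have hNY1 : 1 ≤ mixedEmbedding.norm Y := hmn1.trans hNYm
  have hNX0 : 0 < mixedEmbedding.norm X := lt_of_lt_of_le one_pos hNX1
  have hNY0 : 0 < mixedEmbedding.norm Y := lt_of_lt_of_le one_pos hNY1
  have hdm0 : 0 ≤ δ / m := div_nonneg hδ0 hm0.le
  -- bound for rho
  have htc : ∀ j, |tcoord K Y j - tcoord K X j| ≤ L * (4 * (δ / m)) := by
    intro j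
    have : tcoord K Y j - tcoord K X j = (logBasis K).repr (logMap Y - logMap X) j := by
      unfold tcoord
      rw [map_sub, Finsupp.sub_apply]
    rw [this]
    exact hL _ _ (mul_nonneg (by norm_num) hdm0) hlogMap j
  have hrho : |rho K Y - rho K X| ≤ r * (L * (4 * (δ / m))) := by
    unfold rho
    refine (abs_prod_tent_sub_le _ _).trans ?_
    calc ∑ j, |tcoord K Y j - tcoord K X j| ≤ ∑ _j : Fin (rank K), L * (4 * (δ / m)) :=
          Finset.sum_le_sum fun j _ => htc j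
      _ = r * (L * (4 * (δ / m))) := by
          rw [Finset.sum_const, Finset.card_univ, Fintype.card_fin, nsmul_eq_mul, hr]
  -- bounds for the powers of the norm
  obtain ⟨pX, hpX_def⟩ : ∃ p : ℝ, p = mixedEmbedding.norm X ^ (-s) := ⟨_, rfl⟩
  obtain ⟨pY, hpY_def⟩ : ∃ p : ℝ, p = mixedEmbedding.norm Y ^ (-s) := ⟨_, rfl⟩
  have hpX0 : 0 ≤ pX := by rw [hpX_def]; exact Real.rpow_nonneg hNX0.le _
  have hpY0 : 0 ≤ pY := by rw [hpY_def]; exact Real.rpow_nonneg hNY0.le _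
  have hpX : pX ≤ (m ^ n)⁻¹ := by
    rw [hpX_def]
    exact (rpow_neg_le_inv hNX1 hs1).trans (inv_anti₀ hmn0 hNXm)
  have hpY : pY ≤ (m ^ n)⁻¹ := by
    rw [hpY_def]
    exact (rpow_neg_le_inv hNY1 hs1).trans (inv_anti₀ hmn0 hNYm)
  have hpow : |pY - pX| ≤ (m ^ n)⁻¹ * (4 * n * (δ / m)) := by
    obtain ⟨a, ha_def⟩ : ∃ a : ℝ, a =
      (Real.log (mixedEmbedding.norm Y) - Real.log (mixedEmbedding.norm X)) * (-s) := ⟨_, rfl⟩
    have ha : |a| ≤ 2 * (n * (δ / m)) := by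
      rw [ha_def, abs_mul, abs_neg, abs_of_nonneg (by linarith : (0:ℝ) ≤ s), mul_comm]
      exact mul_le_mul hs2 hlog (abs_nonneg _) (by norm_num)
    have ha1 : |a| ≤ 1 := ha.trans (by linarith)
    have hexp : pY = pX * Real.exp a := by
      rw [hpY_def, hpX_def, Real.rpow_def_of_pos hNY0, Real.rpow_def_of_pos hNX0,
        ← Real.exp_add, ha_def]
      congr 1; ring
    rw [hexp, ← mul_sub_one, abs_mul, abs_of_nonneg hpX0]
    have h1 : pX * |Real.exp a - 1| ≤ (m ^ n)⁻¹ * (2 * |a|) :=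
      mul_le_mul hpX (Real.abs_exp_sub_one_le ha1) (abs_nonneg _) (inv_nonneg.mpr hmn0.le)
    have h2 : (m ^ n)⁻¹ * (2 * |a|) ≤ (m ^ n)⁻¹ * (2 * (2 * (n * (δ / m)))) :=
      mul_le_mul_of_nonneg_left (by linarith) (inv_nonneg.mpr hmn0.le)
    have h3 : (m ^ n)⁻¹ * (2 * (2 * (n * (δ / m)))) = (m ^ n)⁻¹ * (4 * n * (δ / m)) := by ring
    linarith
  -- assemble
  have hsplit : Fs s Y - Fs s X = (rho K Y - rho K X) * pY + rho K X * (pY - pX) := by
    unfold Fs; rw [hpY_def, hpX_def]; ring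
  obtain ⟨ρX, hρX⟩ : ∃ ρ : ℝ, ρ = rho K X := ⟨_, rfl⟩
  obtain ⟨ρY, hρY⟩ : ∃ ρ : ℝ, ρ = rho K Y := ⟨_, rfl⟩
  have hρX0 : 0 ≤ ρX := by rw [hρX]; exact rho_nonneg K X
  have hρX1 : ρX ≤ 1 := by rw [hρX]; exact rho_le_one K X
  rw [hsplit, ← hρX, ← hρY]
  rw [← hρX, ← hρY] at hrho
  have hA : |(ρY - ρX) * pY + ρX * (pY - pX)| ≤ |ρY - ρX| * pY + ρX * |pY - pX| := by
    refine (abs_add_le _ _).trans ?_
    rw [abs_mul, abs_mul, abs_of_nonneg hpY0, abs_of_nonneg hρX0]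
  have hB : |ρY - ρX| * pY + ρX * |pY - pX| ≤
      r * (L * (4 * (δ / m))) * (m ^ n)⁻¹ + 1 * ((m ^ n)⁻¹ * (4 * n * (δ / m))) := by
    apply add_le_add
    · exact mul_le_mul hrho hpY hpY0 (mul_nonneg hr0 (mul_nonneg hL0 (mul_nonneg (by norm_num) hdm0)))
    · exact mul_le_mul hρX1 hpow (abs_nonneg _) zero_le_one
  have hC : r * (L * (4 * (δ / m))) * (m ^ n)⁻¹ + 1 * ((m ^ n)⁻¹ * (4 * n * (δ / m))) =
      (4 * r * L + 4 * n) * (2 / c) ^ (n + 1) * δ * (‖X‖ ^ (n + 1))⁻¹ := by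
    rw [hm_def, pow_succ, pow_succ, mul_pow, div_pow, div_pow]
    have hc' : c ≠ 0 := hc0.ne'
    have hX' : ‖X‖ ≠ 0 := hXpos.ne'
    field_simp
  linarith

end Fermat.Agent.S14.H889
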