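import Fermat.Agent.S14.H889.Tent

/-!
# The unit-smoothing function `rho` on the mixed space

`rho X = ∏_j tent (t_j(X))` where `t_j` are the coordinates of `logMap X` in the basis of the
unit lattice.  Main facts: `∑_{u ∈ (𝓞 K)ˣ} rho (u • X) = torsionOrder K`, and on the support of
`rho` all `normAtPlace w X` are comparable to `‖X‖`.
-/

namespace Fermat.Agent.S14.H889

open NumberField NumberField.mixedEmbedding NumberField.Units
  NumberField.Units.dirichletUnitTheorem NumberField.InfinitePlace Module

variable (K : Type*) [Field K] [NumberField K]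

open scoped Classical in
/-- The `ℝ`-basis of `logSpace K` given by the basis of the unit lattice. -/
noncomputable def logBasis : Basis (Fin (rank K)) ℝ (logSpace K) :=
  (basisUnitLattice K).ofZLatticeBasis ℝ (unitLattice K)

/-- Coordinates of `logMap X` in the unit-lattice basis. -/
noncomputable def tcoord (X : mixedSpace K) (j : Fin (rank K)) : ℝ :=
  (logBasis K).repr (logMap X) j

/-- The smoothing weight. -/
noncomputable def rho (X : mixedSpace K) : ℝ := ∏ j, tent (tcoord K X j)

lemma rho_nonneg (X : mixedSpace K) : 0 ≤ rho K X := prod_tent_nonneg _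

lemma rho_le_one (X : mixedSpace K) : rho K X ≤ 1 := prod_tent_le_one _

lemma logEmbedding_mem_unitLattice (u : (𝓞 K)ˣ) :
    logEmbedding K (Additive.ofMul u) ∈ unitLattice K := by
  unfold unitLattice
  exact ⟨Additive.ofMul u, trivial, rfl⟩

/-- Exponent vector of a unit with respect to the fundamental system. -/
noncomputable def unitExp (u : (𝓞 K)ˣ) : Fin (rank K) → ℤ :=
  fun j => (basisUnitLattice K).repr ⟨_, logEmbedding_mem_unitLattice K u⟩ j

open scoped Classical in
lemma repr_logEmbedding (u : (𝓞 K)ˣ) (j : Fin (rank K)) :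
    (logBasis K).repr (logEmbedding K (Additive.ofMul u)) j = (unitExp K u j : ℝ) := by
  have h := Module.Basis.ofZLatticeBasis_repr_apply ℝ (unitLattice K) (basisUnitLattice K)
    ⟨_, logEmbedding_mem_unitLattice K u⟩ j
  rw [logBasis, h]
  rfl

variable {K}

lemma tcoord_unit_smul (u : (𝓞 K)ˣ) {X : mixedSpace K} (hX : mixedEmbedding.norm X ≠ 0)
    (j : Fin (rank K)) : tcoord K (u • X) j = tcoord K X j + unitExp K u j := by
  unfold tcoord
  rw [logMap_unit_smul u hX, map_add, Finsupp.add_apply, repr_logEmbedding, add_comm]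

lemma rho_unit_smul (u : (𝓞 K)ˣ) {X : mixedSpace K} (hX : mixedEmbedding.norm X ≠ 0) :
    rho K (u • X) = ∏ j, tent (tcoord K X j + unitExp K u j) := by
  unfold rho
  exact Finset.prod_congr rfl fun j _ => by rw [tcoord_unit_smul u hX]

variable (K)

/-- Dirichlet's unit theorem as an equivalence. -/
noncomputable def unitsEquiv : (𝓞 K)ˣ ≃ torsion K × (Fin (rank K) → ℤ) where
  toFun u := (exist_unique_eq_mul_prod K u).exists.choose
  invFun p := p.1 * ∏ i, fundSystem K i ^ p.2 i
  left_inv u := ((exist_unique_eq_mul_prod K u).exists.choose_spec).symm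
  right_inv p := by
    have h := exist_unique_eq_mul_prod K (p.1 * ∏ i, fundSystem K i ^ p.2 i)
    exact h.unique h.exists.choose_spec rfl

lemma unitExp_eq (ζ : torsion K) (e : Fin (rank K) → ℤ) :
    unitExp K (ζ * ∏ i, fundSystem K i ^ e i) = e := by
  have h1 : logEmbedding K (Additive.ofMul ((ζ : (𝓞 K)ˣ) * ∏ i, fundSystem K i ^ e i)) =
      ∑ i, e i • ((basisUnitLattice K i : unitLattice K) : logSpace K) := by
    rw [ofMul_mul, map_add, ofMul_prod, map_sum]
    have hζ : logEmbedding K (Additive.ofMul (ζ : (𝓞 K)ˣ)) = 0 :=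
      logEmbedding_eq_zero_iff.mpr ζ.2
    rw [hζ, zero_add]
    refine Finset.sum_congr rfl fun i _ => ?_
    rw [ofMul_zpow, map_zsmul, logEmbedding_fundSystem]
  have h2 : (⟨_, logEmbedding_mem_unitLattice K ((ζ : (𝓞 K)ˣ) * ∏ i, fundSystem K i ^ e i)⟩ :
      unitLattice K) = ∑ i, e i • basisUnitLattice K i := by
    apply Subtype.ext
    show logEmbedding K _ = _
    rw [h1]
    simp
  funext j
  unfold unitExp
  rw [h2, Basis.repr_sum_self]

lemma unitsEquiv_symm_snd (p : torsion K × (Fin (rank K) → ℤ)) :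
    unitExp K ((unitsEquiv K).symm p) = p.2 :=
  unitExp_eq K p.1 p.2

variable {K}

/-- The weights `rho (u • X)` sum to the number of roots of unity. -/
lemma hasSum_rho_unit_smul {X : mixedSpace K} (hX : mixedEmbedding.norm X ≠ 0) :
    HasSum (fun u : (𝓞 K)ˣ => rho K (u • X)) (torsionOrder K : ℝ) := by
  classical
  have key : HasSum (fun p : torsion K × (Fin (rank K) → ℤ) =>
      ∏ j, tent (tcoord K X j + p.2 j)) (torsionOrder K : ℝ) := by
    obtain ⟨S, hS0, hS1⟩ := exists_finset_prod_tent (tcoord K X)
    have : Fintype (torsion K) := Fintype.ofFinite _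
    have hsupp : ∀ p ∉ (Finset.univ : Finset (torsion K)) ×ˢ S,
        ∏ j, tent (tcoord K X j + p.2 j) = 0 := by
      intro p hp
      apply hS0
      intro hmem
      exact hp (Finset.mem_product.mpr ⟨Finset.mem_univ _, hmem⟩)
    have h2 : HasSum (fun p : torsion K × (Fin (rank K) → ℤ) =>
        ∏ j, tent (tcoord K X j + p.2 j))
        (∑ p ∈ (Finset.univ : Finset (torsion K)) ×ˢ S, ∏ j, tent (tcoord K X j + p.2 j)) :=
      hasSum_sum_of_ne_finset_zero hsupp
    rw [Finset.sum_product] at h2
    simp only [hS1, Finset.sum_const, Finset.card_univ, nsmul_eq_mul, mul_one] at h2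
    rwa [torsionOrder, Nat.card_eq_fintype_card]
  have h3 := (Equiv.hasSum_iff (unitsEquiv K)).mpr key
  have h4 : ((fun p : torsion K × (Fin (rank K) → ℤ) => ∏ j, tent (tcoord K X j + p.2 j)) ∘
      (unitsEquiv K)) = fun u : (𝓞 K)ˣ => rho K (u • X) := by
    funext u
    simp only [Function.comp_apply]
    rw [rho_unit_smul u hX]
    have := unitsEquiv_symm_snd K (unitsEquiv K u)
    rw [Equiv.symm_apply_apply] at this
    rw [this]
  rw [← h4]
  exact h3

end Fermat.Agent.S14.H889
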