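import Mathlib

/-!
# Tent functions: a Lipschitz partition of unity on `ℤ`-translates

`tent t = max 0 (1 - |t|)`; `∑_{e ∈ ℤ} tent (t + e) = 1`, and the same for finite products.
-/

namespace Fermat.Agent.S14.H889

open Finset

/-- The tent function `max 0 (1 - |t|)`. -/
noncomputable def tent (t : ℝ) : ℝ := max 0 (1 - |t|)

lemma tent_nonneg (t : ℝ) : 0 ≤ tent t := le_max_left _ _

lemma tent_le_one (t : ℝ) : tent t ≤ 1 := by
  unfold tent
  exact max_le zero_le_one (by linarith [abs_nonneg t])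

lemma tent_eq_zero_of_one_le_abs {t : ℝ} (h : 1 ≤ |t|) : tent t = 0 := by
  unfold tent
  exact max_eq_left (by linarith)

lemma tent_eq_of_abs_le_one {t : ℝ} (h : |t| ≤ 1) : tent t = 1 - |t| := by
  unfold tent
  exact max_eq_right (by linarith)

lemma abs_lt_one_of_tent_ne_zero {t : ℝ} (h : tent t ≠ 0) : |t| < 1 := by
  by_contra hcon
  exact h (tent_eq_zero_of_one_le_abs (not_lt.mp hcon))

lemma tent_lipschitz (s t : ℝ) : |tent s - tent t| ≤ |s - t| := by
  unfold tent
  have h1 : |max 0 (1 - |s|) - max 0 (1 - |t|)| ≤ |(1 - |s|) - (1 - |t|)| := by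
    have := abs_max_sub_max_le_abs (1 - |s|) (1 - |t|) (0 : ℝ)
    rwa [max_comm (1 - |s|) 0, max_comm (1 - |t|) 0] at this
  have h2 : |(1 - |s|) - (1 - |t|)| ≤ |s - t| := by
    have : (1 - |s|) - (1 - |t|) = |t| - |s| := by ring
    rw [this, abs_sub_comm s t]
    exact abs_abs_sub_abs_le_abs_sub t s
  exact h1.trans h2

/-- One-dimensional partition of unity. -/
lemma hasSum_tent (t : ℝ) : HasSum (fun e : ℤ => tent (t + e)) 1 := by
  set m : ℤ := ⌊t⌋ with hm
  have hf0 : 0 ≤ t - m := by linarith [Int.floor_le t]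
  have hf1 : t - m < 1 := by linarith [Int.lt_floor_add_one t]
  have hsupp : ∀ e ∉ ({-m - 1, -m} : Finset ℤ), tent (t + e) = 0 := by
    intro e he
    simp only [Finset.mem_insert, Finset.mem_singleton, not_or] at he
    apply tent_eq_zero_of_one_le_abs
    rcases lt_trichotomy e (-m - 1) with h | h | h
    · have : e ≤ -m - 2 := by omega
      have : (e : ℝ) ≤ -m - 2 := by exact_mod_cast this
      rw [abs_of_nonpos (by linarith)]
      linarith
    · exact absurd h he.1
    · have h' : -m ≤ e := by omega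
      have h'' : -m + 1 ≤ e := by
        rcases eq_or_lt_of_le h' with h3 | h3
        · exact absurd h3.symm he.2
        · omega
      have : ((-m + 1 : ℤ) : ℝ) ≤ e := by exact_mod_cast h''
      push_cast at this
      rw [abs_of_nonneg (by linarith)]
      linarith
  have hsum : HasSum (fun e : ℤ => tent (t + e)) (∑ e ∈ ({-m - 1, -m} : Finset ℤ), tent (t + e)) :=
    hasSum_sum_of_ne_finset_zero hsupp
  have hne : (-m - 1 : ℤ) ≠ -m := by omega
  rw [Finset.sum_pair hne] at hsum
  have e1 : tent (t + ((-m - 1 : ℤ) : ℝ)) = t - m := by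
    push_cast
    rw [tent_eq_of_abs_le_one (by rw [abs_le]; constructor <;> linarith),
      abs_of_nonpos (by linarith)]
    ring
  have e2 : tent (t + ((-m : ℤ) : ℝ)) = 1 - (t - m) := by
    push_cast
    rw [tent_eq_of_abs_le_one (by rw [abs_le]; constructor <;> linarith),
      abs_of_nonneg (by linarith)]
    ring
  rw [e1, e2] at hsum
  convert hsum using 1
  ring

/-- Multi-dimensional partition of unity. -/
lemma hasSum_prod_tent {ι : Type*} [Fintype ι] [DecidableEq ι] (t : ι → ℝ) :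
    HasSum (fun e : ι → ℤ => ∏ j, tent (t j + e j)) 1 := by
  classical
  let S : ι → Finset ℤ := fun j => {-⌊t j⌋ - 1, -⌊t j⌋}
  have hsupp1 : ∀ j, ∀ e ∉ S j, tent (t j + e) = 0 := by
    intro j e he
    by_contra hne
    have habs := abs_lt_one_of_tent_ne_zero hne
    have hf0 : 0 ≤ t j - ⌊t j⌋ := by linarith [Int.floor_le (t j)]
    have hf1 : t j - ⌊t j⌋ < 1 := by linarith [Int.lt_floor_add_one (t j)]
    rw [abs_lt] at habs
    have h1 : (-⌊t j⌋ - 2 : ℝ) < e := by linarith
    have h2 : (e : ℝ) < -⌊t j⌋ + 1 := by linarith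
    have h1' : -⌊t j⌋ - 2 < e := by exact_mod_cast h1
    have h2' : e < -⌊t j⌋ + 1 := by exact_mod_cast h2
    apply he
    simp only [S, Finset.mem_insert, Finset.mem_singleton]
    omega
  have hsupp : ∀ e ∉ Fintype.piFinset S, ∏ j, tent (t j + e j) = 0 := by
    intro e he
    rw [Fintype.mem_piFinset] at he
    push Not at he
    obtain ⟨j, hj⟩ := he
    exact Finset.prod_eq_zero (Finset.mem_univ j) (hsupp1 j _ hj)
  have hsum : HasSum (fun e : ι → ℤ => ∏ j, tent (t j + e j))
      (∑ e ∈ Fintype.piFinset S, ∏ j, tent (t j + e j)) :=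
    hasSum_sum_of_ne_finset_zero hsupp
  have hprod : ∑ e ∈ Fintype.piFinset S, ∏ j, tent (t j + e j) = 1 := by
    rw [← Finset.prod_univ_sum S (fun j e => tent (t j + e))]
    apply Finset.prod_eq_one
    intro j _
    have h1 := hasSum_tent (t j)
    have h2 : HasSum (fun e : ℤ => tent (t j + e)) (∑ e ∈ S j, tent (t j + e)) :=
      hasSum_sum_of_ne_finset_zero (hsupp1 j)
    exact h2.unique h1
  rwa [hprod] at hsum

/-- Finite-support form of the multi-dimensional partition of unity. -/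
lemma exists_finset_prod_tent {ι : Type*} [Fintype ι] [DecidableEq ι] (t : ι → ℝ) :
    ∃ S : Finset (ι → ℤ), (∀ e ∉ S, ∏ j, tent (t j + e j) = 0) ∧
      ∑ e ∈ S, ∏ j, tent (t j + e j) = 1 := by
  classical
  have hS := hasSum_prod_tent t
  -- use the support: finitely many `e` with nonzero value
  have hfin : (Function.support fun e : ι → ℤ => ∏ j, tent (t j + e j)).Finite := by
    refine Set.Finite.subset (Fintype.piFinset fun j => ({-⌊t j⌋ - 1, -⌊t j⌋} : Finset ℤ)).finite_toSet ?_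
    intro e he
    rw [Function.mem_support] at he
    rw [Finset.mem_coe, Fintype.mem_piFinset]
    intro j
    have hne : tent (t j + e j) ≠ 0 := fun h => he (Finset.prod_eq_zero (Finset.mem_univ j) h)
    have habs := abs_lt_one_of_tent_ne_zero hne
    have hf0 : 0 ≤ t j - ⌊t j⌋ := by linarith [Int.floor_le (t j)]
    have hf1 : t j - ⌊t j⌋ < 1 := by linarith [Int.lt_floor_add_one (t j)]
    rw [abs_lt] at habs
    have h1 : (-⌊t j⌋ - 2 : ℝ) < e j := by linarith
    have h2 : (e j : ℝ) < -⌊t j⌋ + 1 := by linarith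
    have h1' : -⌊t j⌋ - 2 < e j := by exact_mod_cast h1
    have h2' : e j < -⌊t j⌋ + 1 := by exact_mod_cast h2
    simp only [Finset.mem_insert, Finset.mem_singleton]
    omega
  refine ⟨hfin.toFinset, fun e he => ?_, ?_⟩
  · by_contra hne
    exact he (hfin.mem_toFinset.mpr (Function.mem_support.mpr hne))
  · have h2 : HasSum (fun e : ι → ℤ => ∏ j, tent (t j + e j))
        (∑ e ∈ hfin.toFinset, ∏ j, tent (t j + e j)) :=
      hasSum_sum_of_ne_finset_zero (fun e he => by
        by_contra hne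
        exact he (hfin.mem_toFinset.mpr (Function.mem_support.mpr hne)))
    exact h2.unique hS

lemma prod_tent_nonneg {ι : Type*} [Fintype ι] (t : ι → ℝ) : 0 ≤ ∏ j, tent (t j) :=
  Finset.prod_nonneg fun _ _ => tent_nonneg _

lemma prod_tent_le_one {ι : Type*} [Fintype ι] (t : ι → ℝ) : ∏ j, tent (t j) ≤ 1 :=
  Finset.prod_le_one (fun _ _ => tent_nonneg _) (fun _ _ => tent_le_one _)

/-- Products of numbers in `[0,1]` are `1`-Lipschitz in each factor (sum form). -/
lemma abs_prod_sub_prod_le {ι : Type*} (s : Finset ι) (a b : ι → ℝ)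
    (ha : ∀ j ∈ s, 0 ≤ a j ∧ a j ≤ 1) (hb : ∀ j ∈ s, 0 ≤ b j ∧ b j ≤ 1) :
    |∏ j ∈ s, a j - ∏ j ∈ s, b j| ≤ ∑ j ∈ s, |a j - b j| := by
  classical
  induction s using Finset.induction_on with
  | empty => simp
  | insert i s hi ih =>
    rw [Finset.prod_insert hi, Finset.prod_insert hi, Finset.sum_insert hi]
    have ha' : ∀ j ∈ s, 0 ≤ a j ∧ a j ≤ 1 := fun j hj => ha j (Finset.mem_insert_of_mem hj)
    have hb' : ∀ j ∈ s, 0 ≤ b j ∧ b j ≤ 1 := fun j hj => hb j (Finset.mem_insert_of_mem hj)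
    have hai := ha i (Finset.mem_insert_self i s)
    have hbi := hb i (Finset.mem_insert_self i s)
    have hA0 : 0 ≤ ∏ j ∈ s, a j := Finset.prod_nonneg fun j hj => (ha' j hj).1
    have hA1 : ∏ j ∈ s, a j ≤ 1 := Finset.prod_le_one (fun j hj => (ha' j hj).1)
      (fun j hj => (ha' j hj).2)
    have key : a i * ∏ j ∈ s, a j - b i * ∏ j ∈ s, b j =
        (a i - b i) * ∏ j ∈ s, a j + b i * (∏ j ∈ s, a j - ∏ j ∈ s, b j) := by ring
    rw [key]
    calc |(a i - b i) * ∏ j ∈ s, a j + b i * (∏ j ∈ s, a j - ∏ j ∈ s, b j)|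
        ≤ |(a i - b i) * ∏ j ∈ s, a j| + |b i * (∏ j ∈ s, a j - ∏ j ∈ s, b j)| := abs_add_le _ _
      _ = |a i - b i| * (∏ j ∈ s, a j) + b i * |∏ j ∈ s, a j - ∏ j ∈ s, b j| := by
          rw [abs_mul, abs_mul, abs_of_nonneg hA0, abs_of_nonneg hbi.1]
      _ ≤ |a i - b i| * 1 + 1 * ∑ j ∈ s, |a j - b j| := by
          gcongr
          · exact hbi.2
          · exact ih ha' hb'
      _ = |a i - b i| + ∑ j ∈ s, |a j - b j| := by ring

lemma abs_prod_tent_sub_le {ι : Type*} [Fintype ι] (s t : ι → ℝ) :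
    |∏ j, tent (s j) - ∏ j, tent (t j)| ≤ ∑ j, |s j - t j| := by
  refine (abs_prod_sub_prod_le Finset.univ _ _ (fun _ _ => ⟨tent_nonneg _, tent_le_one _⟩)
    (fun _ _ => ⟨tent_nonneg _, tent_le_one _⟩)).trans ?_
  exact Finset.sum_le_sum fun _ _ => tent_lipschitz _ _

end Fermat.Agent.S14.H889
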